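import Fermat.Agent.S15.GR.Unif.Den

/-! # S15 / GR / Unif / Fin  (plan: header of `Unif/Defs.lean`) -/

set_option autoImplicit false
set_option linter.unusedSectionVars false

namespace Fermat.Agent.S15.GR

open AlgebraicCurve Fermat.Agent.S26 Fermat.Agent.S37.Red Polynomial IntermediateField

variable {K k : Type*} [Field K] [Field k] {A : ValuationSubring K} {π : A →+* k}
variable {F Ft : Type*} [Field F] [Field Ft] [Algebra K F] [Algebra k Ft]
variable [IsAlgClosed K] [FF1 K F] [IsAlgClosed k] [FF1 k Ft]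
variable {V : VFF A π F Ft} {y : F} {yt : Ft}

theorem hasUnif_of_isChart (hc : IsChart V y yt) : HasUnif V y yt :=
  fun _ _ hQ => hc.exists_unif hQ

/-! ### U-Fin : conclusion -/

/-- `k[yt] ⊆ R`  (lift the coefficients: `Polynomial.map_surjective π V.π_surjective`; `intA_aeval`, `VFF.red_aeval`). -/
theorem aeval_mem_centerRing (hy : V.Red y yt) (p : Polynomial k) :
    aeval yt p ∈ centerRing V y := by
  obtain ⟨q, rfl⟩ := Polynomial.map_surjective π V.π_surjective p
  exact ⟨aeval y (q.map A.subtype), intA_aeval q, V.red_aeval hy q⟩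

/-- `exists_denominator` for `T = (finite_over pc.trans c).toFinset`, `u Q` chosen by `hU` (junk outside `T`); `u Q ∈ R`, so `fam … a ∈ R` (`Subring.prod_mem`, `pow_mem`, `mul_mem`), integral by `IntA.intK_red`. -/
theorem exists_mul_mem_centerRing (pc : IsPreChart V y yt) (hU : HasUnif V y yt) (c : k) {h : Ft}
    (hh : IntK k yt h) : ∃ d : Polynomial k, d.eval c ≠ 0 ∧ aeval yt d * h ∈ centerRing V y := by
  classical
  set T := (finite_over pc.trans c).toFinset with hT
  have hTmem : ∀ Q, Q ∈ T ↔ Over yt c Q := fun Q => by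
    rw [hT, Set.Finite.mem_toFinset]; rfl
  have hex : ∀ Q : Place k Ft, ∃ Zt : Ft, Over yt c Q →
      (Zt ∈ centerRing V y ∧ Q.ord Zt = 1 ∧
        ∀ Q' : Place k Ft, Over yt c Q' → Q' ≠ Q → Q'.ord Zt = 0) := by
    intro Q
    by_cases hQ : Over yt c Q
    · obtain ⟨Z, Zt, h1, h2, h3, h4⟩ := hU c Q hQ
      exact ⟨Zt, fun _ => ⟨⟨Z, h1, h2⟩, h3, h4⟩⟩
    · exact ⟨0, fun h => absurd h hQ⟩
  choose u hu using hex
  have hint : ∀ Q ∈ T, IntK k yt (u Q) := by
    intro Q hQ
    obtain ⟨Z, hZ, hZr⟩ := (hu Q ((hTmem Q).1 hQ)).1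
    exact IntA.intK_red V hZ pc.red_y hZr
  obtain ⟨d, P, hd, heq⟩ := exists_denominator pc.trans c T hTmem u hint
    (fun Q hQ => (hu Q ((hTmem Q).1 hQ)).2.1)
    (fun Q hQ Q' hQ' hne => (hu Q ((hTmem Q).1 hQ)).2.2 Q' ((hTmem Q').1 hQ') hne) hh
  refine ⟨d, hd, ?_⟩
  rw [heq]
  apply Subring.sum_mem
  intro a ha
  apply Subring.mul_mem _ (aeval_mem_centerRing pc.red_y _)
  have haT : a.1 ∈ T := (Finset.mem_sigma.1 ha).1
  unfold fam
  apply Subring.mul_mem
  · exact Subring.pow_mem _ (hu a.1 ((hTmem _).1 haT)).1 _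
  · apply Subring.prod_mem
    intro Q' hQ'
    exact Subring.pow_mem _ (hu Q' ((hTmem _).1 (Finset.mem_of_mem_erase hQ'))).1 _

/-- (IDEAL)  `I = {w | w(yt) h ∈ R}` is an ideal of `k[X]` (`aeval_mem_centerRing`); `I = span {g}` (PID: `IsPrincipalIdealRing`, `Submodule.IsPrincipal.generator`); `g ≠ 0`;
if `g` is not a unit it has a root `c` (`IsAlgClosed.exists_root`, `Polynomial.degree_eq_zero_of_isUnit`/`isUnit_iff_degree_eq_zero`), and every element of `I` vanishes at `c`: contradiction with `H c`. -/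
theorem mem_centerRing_of_local (hy : V.Red y yt) {h : Ft}
    (H : ∀ c : k, ∃ d : Polynomial k, d.eval c ≠ 0 ∧ aeval yt d * h ∈ centerRing V y) :
    h ∈ centerRing V y := by
  let I : Ideal (Polynomial k) :=
    { carrier := {w | aeval yt w * h ∈ centerRing V y}
      add_mem' := by
        intro a b ha hb
        show aeval yt (a + b) * h ∈ centerRing V y
        rw [map_add, add_mul]
        exact add_mem ha hb
      zero_mem' := by
        show aeval yt (0 : Polynomial k) * h ∈ centerRing V y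
        rw [map_zero, zero_mul]
        exact zero_mem _
      smul_mem' := by
        intro c w hw
        show aeval yt (c • w) * h ∈ centerRing V y
        rw [smul_eq_mul, map_mul, mul_assoc]
        exact mul_mem (aeval_mem_centerRing hy c) hw }
  set g := Submodule.IsPrincipal.generator I with hg
  have hgen : I = Ideal.span {g} := (Ideal.span_singleton_generator I).symm
  by_cases hdeg : g.degree = 0
  · have hu : IsUnit g := Polynomial.isUnit_iff_degree_eq_zero.2 hdeg
    have h1 : (1 : Polynomial k) ∈ I := by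
      rw [hgen, Ideal.span_singleton_eq_top.2 hu]
      exact Submodule.mem_top
    have h2 : aeval yt (1 : Polynomial k) * h ∈ centerRing V y := h1
    rwa [map_one, one_mul] at h2
  · obtain ⟨c, hc⟩ := IsAlgClosed.exists_root g hdeg
    obtain ⟨d, hd, hdI⟩ := H c
    have hdI' : d ∈ I := hdI
    rw [hgen, Ideal.mem_span_singleton] at hdI'
    obtain ⟨q, rfl⟩ := hdI'
    rw [eval_mul, hc.eq_zero, zero_mul] at hd
    exact absurd rfl hd

/-- **(T3)** -/
theorem isChart_of_hasUnif (pc : IsPreChart V y yt) (hU : HasUnif V y yt) : IsChart V y yt :=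
  ⟨pc.red_y, pc.trans, pc.deg, fun _ hh =>
    mem_centerRing_of_local pc.red_y fun c => exists_mul_mem_centerRing pc hU c hh⟩

end Fermat.Agent.S15.GR
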