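import Fermat.Agent.S37.Red.Conv

/-!
# S15 / GR / Unif : (DEG) + local parameters in `red B_A(y)` ⇒ normality (N2)      (T3)

`V : VFF A π F Ft`, `pc : IsPreChart V y yt`, `R = centerRing V y = red B_A(y) ⊆ Bt =` integral closure of `k[yt]` in `Ft`.

`HasUnif V y yt` : for every place `Q | c` of `Ft` there is `Zt ∈ R` with a simple zero at `Q` and no other zero over `c`
(this is the conclusion of `IsChart.exists_unif`).

**Theorem** `isChart_of_hasUnif` : `IsPreChart V y yt → HasUnif V y yt → IsChart V y yt`.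

Proof (no finiteness of `Bt` over `k[yt]`, no separability, no discriminant).  Fix `c : k`; `T` = the fibre of `yt` over `c`, `e_Q = ord_Q (yt - c)`, `∑_{Q ∈ T} e_Q = n = [Ft : k(yt)]` (`sum_ord_over`);
`u_Q ∈ R` the local parameters; `ρ_{Q,i} = u_Q ^ i * ∏_{Q' ∈ T, Q' ≠ Q} u_{Q'} ^ e_{Q'} ∈ R`  (`Q ∈ T`, `i < e_Q`): `n` elements.
(P2) if `∑ λ_{Q,i} ρ_{Q,i} ∈ (yt - c) Bt` with `λ_{Q,i} ∈ k`, then all `λ_{Q,i} = 0`  (look at `ord_Q`).
(REL) the `n + 1` elements `h, ρ_{Q,i}` are linearly dependent over `k(yt)`, so `d(yt) h = ∑ p_{Q,i}(yt) ρ_{Q,i}` with polynomials not all divisible by `X - c`.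
If `d(c) = 0` then `∑ p_{Q,i}(c) ρ_{Q,i} ∈ (yt - c) Bt`, so all `p_{Q,i}(c) = 0` by (P2): contradiction.  So `d(c) ≠ 0` and `d(yt) h ∈ R`.
(IDEAL) `{w ∈ k[X] | w(yt) h ∈ R}` is an ideal of `k[X]` without common zero, `k` algebraically closed: it contains `1`.
-/

set_option autoImplicit false
set_option linter.unusedSectionVars false

namespace Fermat.Agent.S15.GR

open AlgebraicCurve Fermat.Agent.S26 Fermat.Agent.S37.Red Polynomial IntermediateField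

section FF

variable {Ω 𝕃 : Type*} [Field Ω] [Field 𝕃] [Algebra Ω 𝕃]

/-- `s ∈ (x - c) B`, `B` the integral closure of `Ω[x]` in `𝕃`. -/
def InI (x : 𝕃) (c : Ω) (s : 𝕃) : Prop :=
  ∃ h : 𝕃, IntK Ω x h ∧ s = (x - algebraMap Ω 𝕃 c) * h

/-- `e_Q = ord_Q (x - c)`. -/
noncomputable def eOrd (x : 𝕃) (c : Ω) (Q : Place Ω 𝕃) : ℕ := (Q.ord (x - algebraMap Ω 𝕃 c)).toNat

open Classical in
/-- `ρ_{Q,i} = u_Q ^ i * ∏_{Q' ∈ T, Q' ≠ Q} u_{Q'} ^ e_{Q'}`. -/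
noncomputable def fam (x : 𝕃) (c : Ω) (T : Finset (Place Ω 𝕃)) (u : Place Ω 𝕃 → 𝕃)
    (a : (_ : Place Ω 𝕃) × ℕ) : 𝕃 :=
  u a.1 ^ a.2 * ∏ Q' ∈ T.erase a.1, u Q' ^ eOrd x c Q'

/-- the index set `{(Q, i) | Q ∈ T, i < e_Q}`. -/
noncomputable def idx (x : 𝕃) (c : Ω) (T : Finset (Place Ω 𝕃)) : Finset ((_ : Place Ω 𝕃) × ℕ) :=
  T.sigma fun Q => Finset.range (eOrd x c Q)

end FF

variable {K k : Type*} [Field K] [Field k] {A : ValuationSubring K} {π : A →+* k}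
variable {F Ft : Type*} [Field F] [Field Ft] [Algebra K F] [Algebra k Ft]

/-- **(UNIF)** local parameters in `red B_A(y)`. -/
def HasUnif (V : VFF A π F Ft) (y : F) (yt : Ft) : Prop :=
  ∀ (c : k) (Q : Place k Ft), Over yt c Q →
    ∃ (Z : F) (Zt : Ft), IntA A y Z ∧ V.Red Z Zt ∧ Q.ord Zt = 1 ∧
      ∀ Q' : Place k Ft, Over yt c Q' → Q' ≠ Q → Q'.ord Zt = 0

end Fermat.Agent.S15.GR
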