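import Fermat.Agent.S15.GR.Unif.Defs

/-! # S15 / GR / Unif / Rel  (plan: header of `Unif/Defs.lean`) -/

set_option autoImplicit false
set_option linter.unusedSectionVars false

namespace Fermat.Agent.S15.GR

open AlgebraicCurve Fermat.Agent.S26 Fermat.Agent.S37.Red Polynomial IntermediateField

variable {Ω 𝕃 : Type*} [Field Ω] [Field 𝕃] [Algebra Ω 𝕃]
variable [IsAlgClosed Ω] [FF1 Ω 𝕃]

/-! ### U-Rel : polynomial relations -/

omit [IsAlgClosed Ω] [FF1 Ω 𝕃] in
theorem GRRel_aeval_ne_zero {x : 𝕃} (hx : Transcendental Ω x) {D : Polynomial Ω} (hD : D ≠ 0) :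
    aeval x D ≠ 0 := fun h => hD ((transcendental_iff.mp hx) D h)

omit [IsAlgClosed Ω] [FF1 Ω 𝕃] in
/-- common denominator. -/
theorem GRRel_clear {x : 𝕃} {κ : Type*} (t : Finset κ) (g : κ → Ω⟮x⟯) :
    ∃ D : Polynomial Ω, D ≠ 0 ∧ ∀ i ∈ t, ∃ c : Polynomial Ω, aeval x c = aeval x D * (g i : 𝕃) := by
  classical
  induction t using Finset.induction_on with
  | empty => exact ⟨1, one_ne_zero, fun i hi => absurd hi (Finset.notMem_empty i)⟩
  | insert j t _ ih =>
    obtain ⟨D, hD, hc⟩ := ih
    obtain ⟨a, b, hab⟩ := (IntermediateField.mem_adjoin_simple_iff Ω (g j : 𝕃)).mp (g j).2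
    by_cases hb : aeval x b = 0
    · refine ⟨D, hD, fun i hi => ?_⟩
      rcases Finset.mem_insert.mp hi with rfl | hi
      · exact ⟨0, by rw [hab, hb, div_zero, mul_zero, map_zero]⟩
      · exact hc i hi
    · have hb0 : b ≠ 0 := by
        rintro rfl
        exact hb (map_zero _)
      refine ⟨D * b, mul_ne_zero hD hb0, fun i hi => ?_⟩
      rcases Finset.mem_insert.mp hi with rfl | hi
      · refine ⟨D * a, ?_⟩
        rw [hab, map_mul, map_mul]
        field_simp
      · obtain ⟨c, hc'⟩ := hc i hi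
        refine ⟨c * b, ?_⟩
        rw [map_mul, map_mul, hc']
        ring

/-- `[𝕃 : Ω(x)] + 1` elements satisfy a nontrivial relation with coefficients in `Ω[x]`.
(`Module.exists_nontrivial_relation_of_finrank_lt_card` over `Ω⟮x⟯` for the family `Option`-extended by `h` (or: if the `ρ i` are independent they form a basis); every element of `Ω⟮x⟯` is `aeval x a / aeval x b`
(`IntermediateField.mem_adjoin_simple_iff`); multiply by the product of the denominators.) -/
theorem exists_relation {x : 𝕃} (hx : Transcendental Ω x) {ι : Type*} (s : Finset ι) (r : ι → 𝕃)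
    (hs : Module.finrank Ω⟮x⟯ 𝕃 ≤ s.card) (h : 𝕃) :
    ∃ (d : Polynomial Ω) (p : ι → Polynomial Ω), (d ≠ 0 ∨ ∃ i ∈ s, p i ≠ 0) ∧
      aeval x d * h = ∑ i ∈ s, aeval x (p i) * r i := by
  classical
  have hfd : FiniteDimensional Ω⟮x⟯ 𝕃 := finiteDimensional_adjoin_of_transcendental hx
  let v : Option {i // i ∈ s} → 𝕃 := fun o => o.elim h (fun i => r i.1)
  have hdep : ¬ LinearIndependent Ω⟮x⟯ v := by
    intro hli
    have h1 := hli.fintype_card_le_finrank
    rw [Fintype.card_option, Fintype.card_coe] at h1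
    omega
  obtain ⟨g, hsum, i0, hi0⟩ := Fintype.not_linearIndependent_iff.mp hdep
  obtain ⟨D, hD, hc⟩ := GRRel_clear (x := x) Finset.univ g
  choose c hc using fun i => hc i (Finset.mem_univ i)
  have hD' := GRRel_aeval_ne_zero hx hD
  have hrel : ∑ i, aeval x (c i) * v i = 0 := by
    have h1 : ∑ i, aeval x (c i) * v i = aeval x D * ∑ i, g i • v i := by
      rw [Finset.mul_sum]
      refine Finset.sum_congr rfl fun i _ => ?_
      rw [hc i, mul_assoc]
      rfl
    rw [h1, hsum, mul_zero]
  have hci0 : c i0 ≠ 0 := by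
    intro h0
    have h1 := hc i0
    rw [h0, map_zero] at h1
    rcases mul_eq_zero.mp h1.symm with h2 | h2
    · exact hD' h2
    · exact hi0 (Subtype.ext h2)
  rw [Fintype.sum_option] at hrel
  refine ⟨c none, fun i => if hi : i ∈ s then - c (some ⟨i, hi⟩) else 0, ?_, ?_⟩
  · cases i0 with
    | none => exact Or.inl hci0
    | some i =>
      refine Or.inr ⟨i.1, i.2, ?_⟩
      show (if hi : i.1 ∈ s then - c (some ⟨i.1, hi⟩) else 0) ≠ 0
      rw [dif_pos i.2]
      exact neg_ne_zero.mpr hci0
  · rw [← Finset.sum_coe_sort s]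
    have h2 : ∑ i : {i // i ∈ s}, aeval x (if hi : i.1 ∈ s then - c (some ⟨i.1, hi⟩) else 0) * r i.1
        = - ∑ i : {i // i ∈ s}, aeval x (c (some i)) * v (some i) := by
      rw [← Finset.sum_neg_distrib]
      refine Finset.sum_congr rfl fun i _ => ?_
      rw [dif_pos i.2, map_neg, neg_mul]
      rfl
    rw [h2]
    exact eq_neg_of_add_eq_zero_left hrel

/-- the same with coefficients not all divisible by `X - c`.
(Divide by the gcd: `Finset.extract_gcd` on `insert`/`Option`, or induct on the sum of the degrees; `aeval x g ≠ 0` for `g ≠ 0` as `x` is transcendental, cancel it.) -/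
theorem exists_relation_prim {x : 𝕃} (hx : Transcendental Ω x) {ι : Type*} (s : Finset ι)
    (r : ι → 𝕃) (hs : Module.finrank Ω⟮x⟯ 𝕃 ≤ s.card) (h : 𝕃) (c : Ω) :
    ∃ (d : Polynomial Ω) (p : ι → Polynomial Ω), (d.eval c ≠ 0 ∨ ∃ i ∈ s, (p i).eval c ≠ 0) ∧
      aeval x d * h = ∑ i ∈ s, aeval x (p i) * r i := by
  classical
  obtain ⟨d, p, hne, hrel⟩ := exists_relation hx s r hs h
  let _ : NormalizedGCDMonoid (Polynomial Ω) :=
    Classical.choice (inferInstance : Nonempty (NormalizedGCDMonoid (Polynomial Ω)))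
  let f : Option ι → Polynomial Ω := fun o => o.elim d p
  let t : Finset (Option ι) := Finset.insertNone s
  have htne : t.Nonempty := ⟨none, Finset.none_mem_insertNone⟩
  obtain ⟨g, hg, hg1⟩ := Finset.extract_gcd f htne
  have hG : t.gcd f ≠ 0 := by
    intro h0
    rw [Finset.gcd_eq_zero_iff] at h0
    rcases hne with h1 | ⟨i, hi, h1⟩
    · exact h1 (h0 none Finset.none_mem_insertNone)
    · exact h1 (h0 (some i) (Finset.some_mem_insertNone.mpr hi))
  have hG' := GRRel_aeval_ne_zero hx hG
  refine ⟨g none, fun i => g (some i), ?_, ?_⟩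
  · by_contra hcon
    push Not at hcon
    have hdvd : (X - C c) ∣ t.gcd g := by
      refine Finset.dvd_gcd fun b hb => ?_
      rw [Polynomial.dvd_iff_isRoot]
      cases b with
      | none => exact hcon.1
      | some i => exact hcon.2 i (Finset.some_mem_insertNone.mp hb)
    rw [hg1] at hdvd
    exact (Polynomial.not_isUnit_X_sub_C c) (isUnit_of_dvd_one hdvd)
  · apply mul_left_cancel₀ hG'
    have h1 : d = t.gcd f * g none := hg none Finset.none_mem_insertNone
    have h2 : ∀ i ∈ s, p i = t.gcd f * g (some i) := fun i hi =>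
      hg (some i) (Finset.some_mem_insertNone.mpr hi)
    rw [← mul_assoc, ← map_mul, ← h1, hrel, Finset.mul_sum]
    refine Finset.sum_congr rfl fun i hi => ?_
    rw [h2 i hi, map_mul, mul_assoc]

end Fermat.Agent.S15.GR
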