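import Fermat.Agent.S15.GR.Unif.P2
import Fermat.Agent.S15.GR.Unif.Rel

/-! # S15 / GR / Unif / Den  (plan: header of `Unif/Defs.lean`) -/

set_option autoImplicit false
set_option linter.unusedSectionVars false

namespace Fermat.Agent.S15.GR

open AlgebraicCurve Fermat.Agent.S26 Fermat.Agent.S37.Red Polynomial IntermediateField

variable {Ω 𝕃 : Type*} [Field Ω] [Field 𝕃] [Algebra Ω 𝕃]
variable [IsAlgClosed Ω] [FF1 Ω 𝕃]

/-- **(U5)**  `exists_relation_prim` (`card_idx`); if `d(c) = 0` then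
`∑ p_a(c) ρ_a = d(x) h - ∑ (p_a(x) ρ_a - p_a(c) ρ_a) ∈ (x - c) B` (`inI_aeval_mul`, `inI_aeval_mul_sub`, `inI_sum`, `InI.sub`), so all `p_a(c) = 0` (`coeff_eq_zero_of_inI`): contradiction. -/
theorem exists_denominator {x : 𝕃} (hx : Transcendental Ω x) (c : Ω) (T : Finset (Place Ω 𝕃))
    (hT : ∀ Q, Q ∈ T ↔ Over x c Q) (u : Place Ω 𝕃 → 𝕃) (hint : ∀ Q ∈ T, IntK Ω x (u Q))
    (hu1 : ∀ Q ∈ T, Q.ord (u Q) = 1) (hu0 : ∀ Q ∈ T, ∀ Q' ∈ T, Q' ≠ Q → Q'.ord (u Q) = 0)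
    {h : 𝕃} (hh : IntK Ω x h) :
    ∃ (d : Polynomial Ω) (p : (_ : Place Ω 𝕃) × ℕ → Polynomial Ω), d.eval c ≠ 0 ∧
      aeval x d * h = ∑ a ∈ idx x c T, aeval x (p a) * fam x c T u a := by
  obtain ⟨d, p, hprim, hrel⟩ := exists_relation_prim hx (idx x c T) (fam x c T u)
    (card_idx hx c T hT).ge h c
  refine ⟨d, p, ?_, hrel⟩
  intro hd
  have hI : InI x c (∑ a ∈ idx x c T, algebraMap Ω 𝕃 ((p a).eval c) * fam x c T u a) := by
    have h1 : ∑ a ∈ idx x c T, algebraMap Ω 𝕃 ((p a).eval c) * fam x c T u a =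
        aeval x d * h - ∑ a ∈ idx x c T, (aeval x (p a) * fam x c T u a
          - algebraMap Ω 𝕃 ((p a).eval c) * fam x c T u a) := by
      rw [Finset.sum_sub_distrib, hrel]
      ring
    rw [h1]
    exact (inI_aeval_mul hd hh).sub
      (inI_sum _ _ fun a ha => inI_aeval_mul_sub (p a) (intK_fam c T u hint ha))
  have h0 := coeff_eq_zero_of_inI hx c T hT u hu1 hu0 (fun a => (p a).eval c) hI
  rcases hprim with h' | ⟨i, hi, h'⟩
  · exact h' hd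
  · exact h' (h0 i hi)

end Fermat.Agent.S15.GR
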