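import Fermat.Agent.S15.GR.Unif.Defs

/-! # S15 / GR / Unif / InI  (plan: header of `Unif/Defs.lean`) -/

set_option autoImplicit false
set_option linter.unusedSectionVars false

namespace Fermat.Agent.S15.GR

open AlgebraicCurve Fermat.Agent.S26 Fermat.Agent.S37.Red Polynomial IntermediateField

variable {Ω 𝕃 : Type*} [Field Ω] [Field 𝕃] [Algebra Ω 𝕃]

/-! ### U-InI : the "ideal" `(x - c) B` -/

theorem inI_zero (x : 𝕃) (c : Ω) : InI x c (0 : 𝕃) :=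
  ⟨0, intK_zero, by rw [mul_zero]⟩

theorem InI.add {x : 𝕃} {c : Ω} {s t : 𝕃} (hs : InI x c s) (ht : InI x c t) : InI x c (s + t) := by
  obtain ⟨h, hh, rfl⟩ := hs
  obtain ⟨h', hh', rfl⟩ := ht
  exact ⟨h + h', hh.add hh', by ring⟩

theorem InI.sub {x : 𝕃} {c : Ω} {s t : 𝕃} (hs : InI x c s) (ht : InI x c t) : InI x c (s - t) := by
  obtain ⟨h, hh, rfl⟩ := hs
  obtain ⟨h', hh', rfl⟩ := ht
  exact ⟨h - h', hh.sub hh', by ring⟩

theorem inI_sum {x : 𝕃} {c : Ω} {ι : Type*} (s : Finset ι) (f : ι → 𝕃) (h : ∀ i ∈ s, InI x c (f i)) :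
    InI x c (∑ i ∈ s, f i) := by
  classical
  induction s using Finset.induction_on with
  | empty => simpa using inI_zero x c
  | insert a s ha ih =>
    rw [Finset.sum_insert ha]
    exact (h a (Finset.mem_insert_self a s)).add
      (ih fun i hi => h i (Finset.mem_insert_of_mem hi))

/-- `d(c) = 0` ⇒ `d(x) h ∈ (x - c) B`   (`X - C c ∣ d`: `Polynomial.dvd_iff_isRoot`). -/
theorem inI_aeval_mul {x : 𝕃} {c : Ω} {d : Polynomial Ω} (hd : d.eval c = 0) {h : 𝕃}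
    (hh : IntK Ω x h) : InI x c (aeval x d * h) := by
  obtain ⟨e, rfl⟩ := Polynomial.dvd_iff_isRoot.mpr hd
  refine ⟨aeval x e * h, (intK_aeval e).mul hh, ?_⟩
  rw [map_mul, map_sub, aeval_X, aeval_C]
  ring

/-- `p(x) ρ - p(c) ρ ∈ (x - c) B`   (`inI_aeval_mul` for `p - C (p.eval c)`). -/
theorem inI_aeval_mul_sub {x : 𝕃} {c : Ω} (p : Polynomial Ω) {r : 𝕃} (hr : IntK Ω x r) :
    InI x c (aeval x p * r - algebraMap Ω 𝕃 (p.eval c) * r) := by
  have h := inI_aeval_mul (x := x) (c := c) (d := p - C (p.eval c)) (by simp) hr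
  rwa [map_sub, aeval_C, sub_mul] at h

/-- orders of the elements of `(x - c) B`  (`Place.ord_mul`, `IntK.reg`, `reg_iff_ord`). -/
theorem InI.le_ord {x : 𝕃} {c : Ω} {s : 𝕃} (hs : InI x c s) (hs0 : s ≠ 0) {Q : Place Ω 𝕃}
    (hQ : Over x c Q) : Q.ord (x - algebraMap Ω 𝕃 c) ≤ Q.ord s := by
  obtain ⟨h, hh, rfl⟩ := hs
  have h1 : x - algebraMap Ω 𝕃 c ≠ 0 := left_ne_zero_of_mul hs0
  have h2 : h ≠ 0 := right_ne_zero_of_mul hs0
  rw [Place.ord_mul _ h1 h2]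
  have h3 : 0 ≤ Q.ord h := (reg_iff_ord Q).mp (hh.reg Q hQ.1)
  linarith

end Fermat.Agent.S15.GR
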