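import Fermat.Agent.S15.GR.Unif.Defs

/-! # S15 / GR / Unif / Ord  (plan: header of `Unif/Defs.lean`) -/

set_option autoImplicit false
set_option linter.unusedSectionVars false

namespace Fermat.Agent.S15.GR

open AlgebraicCurve Fermat.Agent.S26 Fermat.Agent.S37.Red Polynomial IntermediateField

variable {Ω 𝕃 : Type*} [Field Ω] [Field 𝕃] [Algebra Ω 𝕃]
variable [IsAlgClosed Ω] [FF1 Ω 𝕃]

/-! ### U-Ord : polynomials in a local parameter -/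

/-- (U1) For a local parameter `t` at `Q` and `P ≠ 0`: `ord_Q P(t)` is the lowest exponent of `P`.
(`P = X ^ m * P₁`, `m = P.natTrailingDegree`, `P₁.eval 0 ≠ 0`; `t` vanishes at `Q` so `val Q (P₁(t)) = P₁(0) ≠ 0` (`val_aeval`, `val_eq_zero_of_van`, `van_of_ord_pos`), so `ord_Q P₁(t) = 0` (`ord_eq_zero_of_reg_of_not_van`).) -/
theorem ord_aeval_of_ord_eq_one (Q : Place Ω 𝕃) {t : 𝕃} (ht : Q.ord t = 1) {P : Polynomial Ω}
    (hP : P ≠ 0) : aeval t P ≠ 0 ∧ Q.ord (aeval t P) = P.natTrailingDegree := by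
  obtain ⟨q, hq, hnd⟩ := Polynomial.exists_eq_pow_rootMultiplicity_mul_and_not_dvd P hP 0
  rw [Polynomial.rootMultiplicity_eq_natTrailingDegree'] at hq
  have hq0 : q.eval 0 ≠ 0 := by
    intro h
    exact hnd (Polynomial.dvd_iff_isRoot.2 h)
  have ht0 : t ≠ 0 := by
    rintro rfl
    simp [Place.ord_zero] at ht
  have hvan : Van Q t := van_of_ord_pos Q (by omega)
  have hreg : Reg Q t := hvan.reg Q
  have hval : val Q (aeval t q) = q.eval 0 := by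
    rw [val_aeval Q hreg, val_eq_zero_of_van Q hvan]
  have hregq : Reg Q (aeval t q) := hreg.aeval Q q
  have hnv : ¬ Van Q (aeval t q) := by
    intro h
    exact hq0 (hval ▸ val_eq_zero_of_van Q h)
  have hord : Q.ord (aeval t q) = 0 := ord_eq_zero_of_reg_of_not_van Q hregq hnv
  have hne : aeval t q ≠ 0 := by
    intro h
    exact hnv (h ▸ van_zero Q)
  have hE : aeval t P = t ^ P.natTrailingDegree * aeval t q := by
    conv_lhs => rw [hq]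
    simp
  have hpow : t ^ P.natTrailingDegree ≠ 0 := pow_ne_zero _ ht0
  refine ⟨by rw [hE]; exact mul_ne_zero hpow hne, ?_⟩
  rw [hE, Q.ord_mul hpow hne, Fermat.Agent.S24.FF.ord_pow, ht, hord]
  simp

/-- (U0) `#idx = ∑ e_Q = [𝕃 : Ω(x)]`   (`Finset.card_sigma`, `Finset.card_range`, `sum_ord_over`, `finsum_mem_eq_finite_toFinset_sum`/`finsum_mem_coe_finset`, `over_iff_ord`). -/
theorem card_idx {x : 𝕃} (hx : Transcendental Ω x) (c : Ω) (T : Finset (Place Ω 𝕃))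
    (hT : ∀ Q, Q ∈ T ↔ Over x c Q) : (idx x c T).card = Module.finrank Ω⟮x⟯ 𝕃 := by
  have h := sum_ord_over hx c
  rw [finsum_cond_eq_sum_of_cond_iff (t := T) _ (fun {v} _ => (hT v).symm)] at h
  have h2 : ((idx x c T).card : ℤ) = (Module.finrank Ω⟮x⟯ 𝕃 : ℤ) := by
    rw [← h, idx, Finset.card_sigma, Nat.cast_sum]
    refine Finset.sum_congr rfl fun Q hQ => ?_
    rw [Finset.card_range, eOrd]
    exact Int.toNat_of_nonneg ((over_iff_ord hx).1 ((hT Q).1 hQ)).le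
  exact_mod_cast h2

/-- orders of `ρ_{Q,i}` at the places of `T`: `ord_Q ρ_{Q,i} = i`, and `ord_{Q'} ρ_{Q,i} = e_{Q'}` for `Q' ≠ Q`.  (`NormPoly.ord_prod_pow`, `S24.FF.ord_pow`, `Place.ord_mul`.) -/
theorem ord_fam {x : 𝕃} (c : Ω) (T : Finset (Place Ω 𝕃)) (u : Place Ω 𝕃 → 𝕃)
    (hu1 : ∀ Q ∈ T, Q.ord (u Q) = 1) (hu0 : ∀ Q ∈ T, ∀ Q' ∈ T, Q' ≠ Q → Q'.ord (u Q) = 0)
    {Q : Place Ω 𝕃} (hQ : Q ∈ T) (i : ℕ) :
    fam x c T u ⟨Q, i⟩ ≠ 0 ∧ Q.ord (fam x c T u ⟨Q, i⟩) = i ∧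
      ∀ Q' ∈ T, Q' ≠ Q → Q'.ord (fam x c T u ⟨Q, i⟩) = eOrd x c Q' := by
  classical
  have hne : ∀ Q' ∈ T, u Q' ≠ 0 := by
    intro Q' hQ' h0
    have := hu1 Q' hQ'
    rw [h0, Place.ord_zero] at this
    exact zero_ne_one this
  have hne' : ∀ Q' ∈ T.erase Q, u Q' ≠ 0 := fun Q' hQ' => hne Q' (Finset.mem_of_mem_erase hQ')
  have h1 : u Q ^ i ≠ 0 := pow_ne_zero _ (hne Q hQ)
  have h2 : ∏ Q' ∈ T.erase Q, u Q' ^ eOrd x c Q' ≠ 0 :=
    Finset.prod_ne_zero_iff.2 fun j hj => pow_ne_zero _ (hne' j hj)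
  have hfam : fam x c T u ⟨Q, i⟩ = u Q ^ i * ∏ Q' ∈ T.erase Q, u Q' ^ eOrd x c Q' := by
    unfold fam
    congr!
  refine ⟨by rw [hfam]; exact mul_ne_zero h1 h2, ?_, ?_⟩
  · rw [hfam, Q.ord_mul h1 h2, Fermat.Agent.S24.FF.ord_pow, hu1 Q hQ, NormPoly.ord_prod_pow Q _ _ _ hne',
      Finset.sum_eq_zero]
    · simp
    · intro Q' hQ'
      rw [hu0 Q' (Finset.mem_of_mem_erase hQ') Q hQ (Finset.ne_of_mem_erase hQ').symm, mul_zero]
  · intro Q' hQ' hne2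
    rw [hfam, Q'.ord_mul h1 h2, Fermat.Agent.S24.FF.ord_pow, hu0 Q hQ Q' hQ' hne2,
      NormPoly.ord_prod_pow Q' _ _ _ hne', Finset.sum_eq_single Q']
    · rw [hu1 Q' hQ']
      simp
    · intro R hR hRQ
      rw [hu0 R (Finset.mem_of_mem_erase hR) Q' hQ' hRQ.symm, mul_zero]
    · intro hn
      exact absurd (Finset.mem_erase.2 ⟨hne2, hQ'⟩) hn

/-- `ρ_{Q,i}` is integral over `Ω[x]`. -/
theorem intK_fam {x : 𝕃} (c : Ω) (T : Finset (Place Ω 𝕃)) (u : Place Ω 𝕃 → 𝕃)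
    (hint : ∀ Q ∈ T, IntK Ω x (u Q)) {a : (_ : Place Ω 𝕃) × ℕ} (ha : a ∈ idx x c T) :
    IntK Ω x (fam x c T u a) := by
  classical
  have ha1 : a.1 ∈ T := (Finset.mem_sigma.1 ha).1
  unfold fam
  refine ((hint a.1 ha1).pow _).mul (intK_prod _ _ fun Q' hQ' => ?_)
  exact (hint Q' (Finset.mem_of_mem_erase hQ')).pow _

end Fermat.Agent.S15.GR
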