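import Fermat.Agent.S15.GR.Unif.InI
import Fermat.Agent.S15.GR.Unif.Ord

/-! # S15 / GR / Unif / P2  (plan: header of `Unif/Defs.lean`) -/

set_option autoImplicit false
set_option linter.unusedSectionVars false

namespace Fermat.Agent.S15.GR

open AlgebraicCurve Fermat.Agent.S26 Fermat.Agent.S37.Red Polynomial IntermediateField

variable {Ω 𝕃 : Type*} [Field Ω] [Field 𝕃] [Algebra Ω 𝕃]
variable [IsAlgClosed Ω] [FF1 Ω 𝕃]

theorem GRP2_reg_div_iff (Q : Place Ω 𝕃) {f w : 𝕃} (hf : f ≠ 0) (hw : w ≠ 0) :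
    Reg Q (f / w) ↔ Q.ord w ≤ Q.ord f := by
  rw [reg_iff_ord, div_eq_mul_inv, Q.ord_mul hf (inv_ne_zero hw), Q.ord_inv]
  omega

theorem GRP2_coeff (e : ℕ) (l : ℕ → Ω) (m : ℕ) :
    (∑ j ∈ Finset.range e, C (l j) * X ^ j : Polynomial Ω).coeff m = if m < e then l m else 0 := by
  rw [Polynomial.finsetSum_coeff]
  simp only [Polynomial.coeff_C_mul_X_pow]
  rw [Finset.sum_ite_eq]
  simp

/-- **(P2)**.  Fix `Q ∈ T`.  `S = ∑_{(Q',i)} λ ρ = S_Q + S'`, `S_Q = P(u_Q) E_Q` with `P = ∑_{i < e_Q} λ_{Q,i} X^i`, `E_Q = ∏_{Q' ≠ Q} u_{Q'}^{e_{Q'}}` of order `0` at `Q`;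
every term of `S'` is `0` or has `ord_Q ≥ e_Q` (`ord_fam`), and `S` too (`InI.le_ord`); so `S_Q = S - S'` is `0` or has `ord_Q ≥ e_Q`
(work with `Reg Q (· / (x - c))` or with `Place.adicValuation` to avoid case distinctions: `f = 0 ∨ e ≤ ord_Q f` is stable under sums);
if `P ≠ 0` then `ord_Q S_Q = P.natTrailingDegree < e_Q` (`ord_aeval_of_ord_eq_one`): contradiction.  So `P = 0`, i.e. `λ_{Q,i} = 0` for `i < e_Q`. -/
theorem coeff_eq_zero_of_inI {x : 𝕃} (hx : Transcendental Ω x) (c : Ω) (T : Finset (Place Ω 𝕃))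
    (hT : ∀ Q, Q ∈ T ↔ Over x c Q) (u : Place Ω 𝕃 → 𝕃)
    (hu1 : ∀ Q ∈ T, Q.ord (u Q) = 1) (hu0 : ∀ Q ∈ T, ∀ Q' ∈ T, Q' ≠ Q → Q'.ord (u Q) = 0)
    (lam : (_ : Place Ω 𝕃) × ℕ → Ω)
    (h : InI x c (∑ a ∈ idx x c T, algebraMap Ω 𝕃 (lam a) * fam x c T u a)) :
    ∀ a ∈ idx x c T, lam a = 0 := by
  classical
  rintro ⟨Q, i⟩ ha
  obtain ⟨hQ, hi⟩ := Finset.mem_sigma.1 ha
  simp only [Finset.mem_range] at hQ hi
  have hw0 : x - algebraMap Ω 𝕃 c ≠ 0 := FFInt.sub_ne_zero hx c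
  have hover : Over x c Q := (hT Q).1 hQ
  have hpos : 0 < Q.ord (x - algebraMap Ω 𝕃 c) := (over_iff_ord hx).1 hover
  have he : (eOrd x c Q : ℤ) = Q.ord (x - algebraMap Ω 𝕃 c) := Int.toNat_of_nonneg hpos.le
  have hregS : Reg Q ((∑ a ∈ idx x c T, algebraMap Ω 𝕃 (lam a) * fam x c T u a) /
      (x - algebraMap Ω 𝕃 c)) := by
    by_cases hS0 : (∑ a ∈ idx x c T, algebraMap Ω 𝕃 (lam a) * fam x c T u a) = 0
    · rw [hS0, zero_div]
      exact reg_zero Q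
    · exact (GRP2_reg_div_iff Q hS0 hw0).2 (h.le_ord hS0 hover)
  have hsplit : (∑ a ∈ idx x c T, algebraMap Ω 𝕃 (lam a) * fam x c T u a) =
      aeval (u Q) (∑ j ∈ Finset.range (eOrd x c Q), C (lam ⟨Q, j⟩) * X ^ j : Polynomial Ω) *
        fam x c T u ⟨Q, 0⟩ +
      ∑ Q' ∈ T.erase Q, ∑ j ∈ Finset.range (eOrd x c Q'),
        algebraMap Ω 𝕃 (lam ⟨Q', j⟩) * fam x c T u ⟨Q', j⟩ := by
    rw [idx, Finset.sum_sigma, ← Finset.add_sum_erase _ _ hQ]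
    congr 1
    simp only [map_sum, map_mul, aeval_C, map_pow, aeval_X, Finset.sum_mul]
    refine Finset.sum_congr rfl fun j _ => ?_
    simp [fam, mul_assoc]
  have hregS' : Reg Q ((∑ Q' ∈ T.erase Q, ∑ j ∈ Finset.range (eOrd x c Q'),
        algebraMap Ω 𝕃 (lam ⟨Q', j⟩) * fam x c T u ⟨Q', j⟩) / (x - algebraMap Ω 𝕃 c)) := by
    rw [Finset.sum_div]
    refine reg_sum Q _ _ fun Q' hQ' => ?_
    rw [Finset.sum_div]
    refine reg_sum Q _ _ fun j _ => ?_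
    rw [mul_div_assoc]
    refine (reg_algebraMap Q _).mul Q ?_
    obtain ⟨h0, -, h2⟩ := ord_fam (x := x) c T u hu1 hu0 (Finset.mem_of_mem_erase hQ') j
    rw [GRP2_reg_div_iff Q h0 hw0, h2 Q hQ (Finset.ne_of_mem_erase hQ').symm, he]
  have hregP : Reg Q (aeval (u Q)
      (∑ j ∈ Finset.range (eOrd x c Q), C (lam ⟨Q, j⟩) * X ^ j : Polynomial Ω) *
        fam x c T u ⟨Q, 0⟩ / (x - algebraMap Ω 𝕃 c)) := by
    have := hregS.sub Q hregS'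
    rwa [← sub_div, hsplit, add_sub_cancel_right] at this
  have hP : (∑ j ∈ Finset.range (eOrd x c Q), C (lam ⟨Q, j⟩) * X ^ j : Polynomial Ω) = 0 := by
    by_contra hP
    obtain ⟨h1, h2⟩ := ord_aeval_of_ord_eq_one Q (hu1 Q hQ) hP
    obtain ⟨h3, h4, -⟩ := ord_fam (x := x) c T u hu1 hu0 hQ 0
    rw [GRP2_reg_div_iff Q (mul_ne_zero h1 h3) hw0, Q.ord_mul h1 h3, h2, h4, ← he] at hregP
    have hm := natTrailingDegree_mem_support_of_nonzero hP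
    rw [mem_support_iff, GRP2_coeff (eOrd x c Q) (fun j => lam ⟨Q, j⟩)] at hm
    split_ifs at hm with hlt
    · push_cast at hregP
      omega
    · exact hm rfl
  have h5 := GRP2_coeff (eOrd x c Q) (fun j => lam ⟨Q, j⟩) i
  rw [if_pos hi, hP, coeff_zero] at h5
  exact h5.symm

end Fermat.Agent.S15.GR
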